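/-
S55 / 21b-UNR-MAX (helper66), part 1: the bridge between helper93's residue calculus
(`UnrExt93.resCard q K` = cardinality of the image of the unit ball of `K` in the residue field of
`PadicAlgCl q`) and helper17's numerical invariants (`LocField17.ramIdx`, `LocField17.resDeg`,
defined through `Nat.card (ResidueField (intRing K))`).

* `resCard_eq_card`, `resCard_eq_pow_resDeg`;
* multiplicativity of `ramIdx`, `resDeg` in towers, `ramIdx_mul_resDeg_eq_relfinrank`;
* `resDeg (K ≤ unr q K n) = n`, `ramIdx (K ≤ unr q K n) = 1`, `ord` of `unr q K n` restricted to `K`.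
Complete (no holes).
-/
import Mathlib
import Fermat.Agent.S55.UnrExt93.BaseChange
import Fermat.Agent.S55.LocField17.Ord

set_option autoImplicit false
set_option linter.style.haveILetI false

noncomputable section

namespace Fermat.Agent.S55.UnrMax66

open Module IsLocalRing
open Fermat.Agent.S55.LocField17 Fermat.Agent.S55.UnrExt93

variable {q : ℕ} [Fact q.Prime]

/-! ### the residue field of `intRing K` inside the residue field of `PadicAlgCl q` -/

/-- the inclusion `𝒪_K → 𝒪_Ω`. -/
def intToOΩ (K : LF q) : intRing K →+* OΩ q where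
  toFun x := ⟨((x : K) : PadicAlgCl q), (mem_OΩ q).2 (norm_le_one x)⟩
  map_one' := rfl
  map_mul' _ _ := rfl
  map_zero' := rfl
  map_add' _ _ := rfl

/-- reduction `𝒪_K → k_Ω`. -/
def redHom (K : LF q) : intRing K →+* kΩ q := (IsLocalRing.residue (OΩ q)).comp (intToOΩ K)

theorem redHom_apply (K : LF q) (x : intRing K) :
    redHom K x = red q ((x : K) : PadicAlgCl q) :=
  (red_of_le (norm_le_one x)).symm

theorem ker_redHom (K : LF q) : RingHom.ker (redHom K) = maximalIdeal (intRing K) := by
  ext x
  rw [RingHom.mem_ker, redHom_apply, red_eq_zero_iff (norm_le_one x), mem_maximalIdeal_iff]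

theorem mem_range_redHom (K : LF q) (a : kΩ q) : a ∈ (redHom K).range ↔ a ∈ resField q K := by
  constructor
  · rintro ⟨x, rfl⟩
    rw [redHom_apply]
    exact red_mem_resField (x : K).2 (norm_le_one x)
  · intro ha
    obtain ⟨x, hxK, hx, rfl⟩ := mem_resField.1 ha
    exact ⟨⟨⟨x, hxK⟩, mem_intRing.2 hx⟩, redHom_apply K _⟩

/-- the residue field of `𝒪_K` is the residue field of `K` in the sense of `UnrExt93`. -/
def residueEquiv (K : LF q) : ResidueField (intRing K) ≃ resField q K :=
  ((Ideal.quotEquivOfEq (ker_redHom K)).symm.toEquiv.trans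
    (RingHom.quotientKerEquivRange (redHom K)).toEquiv).trans
    (Equiv.subtypeEquivRight (mem_range_redHom K))

/-- **(B1)** the two notions of "cardinality of the residue field" agree. -/
theorem resCard_eq_card (K : LF q) :
    resCard q K = Nat.card (ResidueField (intRing K)) :=
  (Nat.card_congr (residueEquiv K)).symm

section Rel

variable {K L M : LF q} [FiniteDimensional ℚ_[q] K] [FiniteDimensional ℚ_[q] L]
  [FiniteDimensional ℚ_[q] M]

/-- **(B2)** `resCard L = resCard K ^ resDeg (L/K)`: the `hf` hypothesis of `UnrExt93.sup_unr`,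
`UnrExt93.frob_pow`, `UnrExt93.unr_le_iff` with `f := LocField17.resDeg h`. -/
theorem resCard_eq_pow_resDeg (h : K ≤ L) : resCard q L = resCard q K ^ resDeg h := by
  rw [resCard_eq_card, resCard_eq_card, card_residueField_eq_pow h]

theorem unifNorm_ne_one (K : LF q) [FiniteDimensional ℚ_[q] K] : unifNorm K ≠ 1 :=
  (unifNorm_lt_one K).ne

/-- **(B3)** the ramification index is multiplicative in towers. -/
theorem ramIdx_trans (h1 : K ≤ L) (h2 : L ≤ M) :
    ramIdx (h1.trans h2) = ramIdx h1 * ramIdx h2 := by
  have e1 := unifNorm_eq_pow h1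
  have e2 := unifNorm_eq_pow h2
  have e3 := unifNorm_eq_pow (h1.trans h2)
  rw [e2, ← pow_mul] at e1
  rw [e1] at e3
  have := pow_right_injective₀ (unifNorm_pos M) (unifNorm_ne_one M) e3
  rw [← this, mul_comm]

/-- **(B3)** the residue degree is multiplicative in towers. -/
theorem resDeg_trans (h1 : K ≤ L) (h2 : L ≤ M) :
    resDeg (h1.trans h2) = resDeg h1 * resDeg h2 := by
  have e1 := resCard_eq_pow_resDeg h1
  have e2 := resCard_eq_pow_resDeg h2
  have e3 := resCard_eq_pow_resDeg (h1.trans h2)
  rw [e1, ← pow_mul] at e2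
  rw [e2] at e3
  exact (Nat.pow_right_injective (one_lt_resCard K) e3).symm

theorem ramIdx_self (K : LF q) [FiniteDimensional ℚ_[q] K] : ramIdx (le_refl K) = 1 := by
  have e1 := unifNorm_eq_pow (le_refl K)
  have : unifNorm K ^ 1 = unifNorm K ^ ramIdx (le_refl K) := by rw [pow_one]; exact e1
  exact (pow_right_injective₀ (unifNorm_pos K) (unifNorm_ne_one K) this).symm

theorem resDeg_self (K : LF q) [FiniteDimensional ℚ_[q] K] : resDeg (le_refl K) = 1 := by
  have e1 := resCard_eq_pow_resDeg (le_refl K)
  have : resCard q K ^ 1 = resCard q K ^ resDeg (le_refl K) := by rw [pow_one]; exact e1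
  exact (Nat.pow_right_injective (one_lt_resCard K) this).symm

/-- `e · f = [L : K]`, with the degree as `IntermediateField.relfinrank`. -/
theorem ramIdx_mul_resDeg_eq_relfinrank (h : K ≤ L) :
    ramIdx h * resDeg h = K.relfinrank L := by
  have h1 := ramIdx_mul_resDeg_mul h
  have h2 := IntermediateField.finrank_bot_mul_relfinrank h
  have h3 : 0 < finrank ℚ_[q] K := finrank_pos
  rw [← h2, mul_comm] at h1
  exact Nat.eq_of_mul_eq_mul_left h3 h1

/-- `ramIdx` does not depend on the proof of `K ≤ L` nor on propositionally equal fields. -/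
theorem ramIdx_congr {L' : LF q} [FiniteDimensional ℚ_[q] L'] (h : K ≤ L) (h' : K ≤ L')
    (hL : L = L') : ramIdx h = ramIdx h' := by
  subst hL
  rfl

theorem resDeg_congr {L' : LF q} [FiniteDimensional ℚ_[q] L'] (h : K ≤ L) (h' : K ≤ L')
    (hL : L = L') : resDeg h = resDeg h' := by
  subst hL
  rfl

end Rel

section Unr

variable {K : LF q} [FiniteDimensional ℚ_[q] K] {n : ℕ} [FiniteDimensional ℚ_[q] (unr q K n)]

/-- **(B4)** the residue degree of `K_n / K` is `n`. -/
theorem resDeg_unr (hn : 0 < n) : resDeg (le_unr K n) = n := by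
  have e1 := resCard_eq_pow_resDeg (le_unr K n)
  rw [resCard_unr hn] at e1
  exact (Nat.pow_right_injective (one_lt_resCard K) e1).symm

/-- **(B4)** `K_n / K` is unramified: ramification index `1`. -/
theorem ramIdx_unr (hn : 0 < n) : ramIdx (le_unr K n) = 1 := by
  have h1 := ramIdx_mul_resDeg_eq_relfinrank (le_unr K n)
  rw [resDeg_unr hn, relfinrank_unr hn] at h1
  exact Nat.eq_of_mul_eq_mul_right hn (by rw [h1, one_mul])

theorem unifNorm_unr (hn : 0 < n) : unifNorm (unr q K n) = unifNorm K := by
  have := unifNorm_eq_pow (le_unr K n)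
  rw [ramIdx_unr hn, pow_one] at this
  exact this.symm

/-- the normalised valuation of `K_n` extends that of `K`. -/
theorem ord_inclusion_unr (hn : 0 < n) (x : K) :
    ord (unr q K n) (IntermediateField.inclusion (le_unr K n) x) = ord K x := by
  rw [ord_inclusion, ramIdx_unr hn]
  simp

end Unr

end Fermat.Agent.S55.UnrMax66
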