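/-
S55 / 21b-UNR-MAX (helper66), part 2: the maximal unramified subextension of a finite extension
`L / K` of local fields inside `PadicAlgCl q`, uniqueness of the unramified extension of given
degree, and the compositum `M = L ⊔ K_n` (`n = [L : K] = e f`), which is `L_e`, unramified of
degree `e` over `L`, and has ramification index `e` over `K_n`: the facts consumed by 22-LOC-INV.

Notation: `unr q K n` = `UnrExt93.unr`, `ramIdx h`, `resDeg h`, `ord` = `LocField17`.
Complete (no holes).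
-/
import Mathlib
import Fermat.Agent.S55.UnrMax66.Bridge

set_option autoImplicit false
set_option linter.style.haveILetI false

noncomputable section

namespace Fermat.Agent.S55.UnrMax66

open Module IsLocalRing
open Fermat.Agent.S55.LocField17 Fermat.Agent.S55.UnrExt93

variable {q : ℕ} [Fact q.Prime]

section Max

variable {K L F : LF q} [FiniteDimensional ℚ_[q] K] [FiniteDimensional ℚ_[q] L]
  [FiniteDimensional ℚ_[q] F]

/-- **(M1)** `K_f ≤ L` for `f` the residue degree of `L / K`. -/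
theorem unr_resDeg_le (h : K ≤ L) : unr q K (resDeg h) ≤ L :=
  (unr_le_iff h (resDeg_pos h) (resCard_eq_pow_resDeg h)).2 dvd_rfl

/-- **(M1)** `K_n ≤ L ↔ n ∣ f(L/K)`. -/
theorem unr_le_iff_dvd_resDeg (h : K ≤ L) {n : ℕ} (hn : 0 < n) :
    unr q K n ≤ L ↔ n ∣ resDeg h :=
  unr_le_iff h hn (resCard_eq_pow_resDeg h)

theorem finrank_unr (K : LF q) [FiniteDimensional ℚ_[q] K] {n : ℕ} (hn : 0 < n) :
    finrank ℚ_[q] (unr q K n) = finrank ℚ_[q] K * n := by
  rw [← IntermediateField.finrank_bot_mul_relfinrank (le_unr K n), relfinrank_unr hn]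

/-- **(M2)** uniqueness of the unramified extension: an extension `L / K` with ramification
index `1` is `K_f`, `f = [L : K]` the residue degree. -/
theorem eq_unr_of_ramIdx_eq_one (h : K ≤ L) (he : ramIdx h = 1) : L = unr q K (resDeg h) := by
  have hle := unr_resDeg_le h
  have h1 := ramIdx_mul_resDeg_mul h
  rw [he, one_mul] at h1
  have h2 := finrank_unr K (resDeg_pos h)
  refine (IntermediateField.eq_of_le_of_finrank_eq hle ?_).symm
  rw [h2, ← h1, mul_comm]

/-- conversely `K_n / K` has ramification index one (restated from `Bridge`), so `ramIdx h = 1`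
characterises the fields `K_n`. -/
theorem ramIdx_eq_one_iff (h : K ≤ L) : ramIdx h = 1 ↔ L = unr q K (resDeg h) := by
  refine ⟨eq_unr_of_ramIdx_eq_one h, fun hL => ?_⟩
  haveI : FiniteDimensional ℚ_[q] (unr q K (resDeg h)) := finiteDimensional_unr (resDeg_pos h)
  rw [ramIdx_congr h (le_unr K (resDeg h)) hL]
  exact ramIdx_unr (resDeg_pos h)

/-- **(M2)** `K_f` is THE maximal unramified subextension of `L / K`. -/
theorem le_unr_resDeg_of_ramIdx_eq_one (hKF : K ≤ F) (hFL : F ≤ L) (he : ramIdx hKF = 1) :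
    F ≤ unr q K (resDeg (hKF.trans hFL)) := by
  rw [resDeg_trans hKF hFL]
  exact (eq_unr_of_ramIdx_eq_one hKF he).le.trans (unr_mono (dvd_mul_right _ _))

/-- **(M3)** base change: `L · K_{f m} = L_m`. -/
theorem sup_unr_eq (h : K ≤ L) (m : ℕ) : L ⊔ unr q K (resDeg h * m) = unr q L m :=
  sup_unr h (resCard_eq_pow_resDeg h) m

/-- **(M3)** `L · K_n = L_e` for `n = e f = [L : K]`. -/
theorem sup_unr_ramIdx (h : K ≤ L) :
    L ⊔ unr q K (ramIdx h * resDeg h) = unr q L (ramIdx h) := by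
  rw [mul_comm]
  exact sup_unr_eq h _

/-- **(M3)** the same with `n` written as `finrank K L` (relative algebra of `LocField17`). -/
theorem sup_unr_finrank (h : K ≤ L) :
    letI := relAlgebra h
    L ⊔ unr q K (finrank K L) = unr q L (ramIdx h) := by
  rw [finrank_rel_eq h]
  exact sup_unr_ramIdx h

/-- **(M4)** `[L · K_n : L] = e`. -/
theorem relfinrank_sup (h : K ≤ L) :
    L.relfinrank (L ⊔ unr q K (ramIdx h * resDeg h)) = ramIdx h := by
  rw [sup_unr_ramIdx h, relfinrank_unr (ramIdx_pos h)]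

omit [FiniteDimensional ℚ_[q] K] [FiniteDimensional ℚ_[q] L] in
/-- **(M6)** if `L` is stable under `Gal(Ω/K)` then so is `L · K_n` (so `L K_n / K` is Galois
when `L / K` is). -/
theorem stable_sup (hst : ∀ σ ∈ K.fixingSubgroup, ∀ x ∈ L, σ x ∈ L) (n : ℕ) :
    ∀ σ ∈ K.fixingSubgroup, ∀ x ∈ L ⊔ unr q K n, σ x ∈ L ⊔ unr q K n := by
  intro σ hσ x hx
  have hle : L ⊔ unr q K n ≤
      (L ⊔ unr q K n).comap (σ : PadicAlgCl q →ₐ[ℚ_[q]] PadicAlgCl q) := by
    refine sup_le ?_ ?_
    · intro y hy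
      show σ y ∈ L ⊔ unr q K n
      exact (le_sup_left : L ≤ L ⊔ unr q K n) (hst σ hσ y hy)
    · intro y hy
      show σ y ∈ L ⊔ unr q K n
      exact (le_sup_right : unr q K n ≤ L ⊔ unr q K n) (stable n σ hσ hy)
  exact hle hx

end Max

section Sup

variable {K L : LF q} [FiniteDimensional ℚ_[q] K] [FiniteDimensional ℚ_[q] L] {n : ℕ}
  [FiniteDimensional ℚ_[q] (unr q K n)]

/-- for `f ∣ n`, `n = f m`: `L · K_n = L_m`. -/
theorem exists_sup_unr_eq (h : K ≤ L) (hn : 0 < n) (hd : resDeg h ∣ n) :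
    ∃ m, 0 < m ∧ n = resDeg h * m ∧ L ⊔ unr q K n = unr q L m := by
  obtain ⟨m, rfl⟩ := hd
  refine ⟨m, Nat.pos_of_mul_pos_left hn, rfl, sup_unr_eq h m⟩

/-- **(M5)** `L · K_n / L` is unramified (`f ∣ n`). -/
theorem ramIdx_sup_left (h : K ≤ L) (hn : 0 < n) (hd : resDeg h ∣ n) :
    ramIdx (le_sup_left : L ≤ L ⊔ unr q K n) = 1 := by
  obtain ⟨m, hm, -, hM⟩ := exists_sup_unr_eq h hn hd
  haveI : FiniteDimensional ℚ_[q] (unr q L m) := finiteDimensional_unr hm
  rw [ramIdx_congr le_sup_left (le_unr L m) hM]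
  exact ramIdx_unr hm

/-- **(M5)** the residue degree of `L · K_n / L` is `n / f`. -/
theorem resDeg_sup_left (h : K ≤ L) (hn : 0 < n) (hd : resDeg h ∣ n) :
    resDeg h * resDeg (le_sup_left : L ≤ L ⊔ unr q K n) = n := by
  obtain ⟨m, hm, hnm, hM⟩ := exists_sup_unr_eq h hn hd
  haveI : FiniteDimensional ℚ_[q] (unr q L m) := finiteDimensional_unr hm
  rw [resDeg_congr le_sup_left (le_unr L m) hM, resDeg_unr hm, ← hnm]

/-- **(M5)** the ramification index of `L · K_n / K_n` is the ramification index of `L / K`. -/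
theorem ramIdx_sup_right (h : K ≤ L) (hn : 0 < n) (hd : resDeg h ∣ n) :
    ramIdx (le_sup_right : unr q K n ≤ L ⊔ unr q K n) = ramIdx h := by
  have h1 := ramIdx_trans h (le_sup_left : L ≤ L ⊔ unr q K n)
  have h2 := ramIdx_trans (le_unr K n) (le_sup_right : unr q K n ≤ L ⊔ unr q K n)
  rw [ramIdx_sup_left h hn hd, mul_one] at h1
  rw [ramIdx_unr hn, one_mul] at h2
  rw [← h2, ← h1]

/-- **(M5)** `L · K_n / K_n` is totally ramified: residue degree `1` (`f ∣ n`). -/
theorem resDeg_sup_right (h : K ≤ L) (hn : 0 < n) (hd : resDeg h ∣ n) :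
    resDeg (le_sup_right : unr q K n ≤ L ⊔ unr q K n) = 1 := by
  have h1 := resDeg_trans h (le_sup_left : L ≤ L ⊔ unr q K n)
  have h2 := resDeg_trans (le_unr K n) (le_sup_right : unr q K n ≤ L ⊔ unr q K n)
  rw [resDeg_sup_left h hn hd] at h1
  rw [resDeg_unr hn] at h2
  have h3 : n * resDeg (le_sup_right : unr q K n ≤ L ⊔ unr q K n) = n * 1 := by
    rw [← h2, mul_one]
    exact h1
  exact Nat.eq_of_mul_eq_mul_left hn h3

/-- **(M5)** `ord_M` restricted to `L` is `ord_L` (`M = L · K_n`, `f ∣ n`). -/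
theorem ord_sup_left (h : K ≤ L) (hn : 0 < n) (hd : resDeg h ∣ n) (x : L) :
    ord (L ⊔ unr q K n) (IntermediateField.inclusion le_sup_left x) = ord L x := by
  rw [ord_inclusion, ramIdx_sup_left h hn hd]
  simp

/-- **(M5)** `ord_M` restricted to `K_n` is `e · ord_{K_n}`. -/
theorem ord_sup_right (h : K ≤ L) (hn : 0 < n) (hd : resDeg h ∣ n) (a : unr q K n) :
    ord (L ⊔ unr q K n) (IntermediateField.inclusion le_sup_right a) =
      ramIdx h * ord (unr q K n) a := by
  rw [ord_inclusion, ramIdx_sup_right h hn hd]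

/-- **(M5)** `e ∣ ord_M a` for `a ∈ K_n` (hypothesis `(he)` of `LocInv80`). -/
theorem dvd_ord_sup (h : K ≤ L) (hn : 0 < n) (hd : resDeg h ∣ n) (a : unr q K n) :
    (ramIdx h : ℤ) ∣ ord (L ⊔ unr q K n) (IntermediateField.inclusion le_sup_right a) :=
  ⟨_, ord_sup_right h hn hd a⟩

/-- the same for elements of `M` known to lie in `K_n`. -/
theorem dvd_ord_of_mem_unr (h : K ≤ L) (hn : 0 < n) (hd : resDeg h ∣ n)
    (x : ↥(L ⊔ unr q K n)) (hx : (x : PadicAlgCl q) ∈ unr q K n) :
    (ramIdx h : ℤ) ∣ ord (L ⊔ unr q K n) x := by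
  have := dvd_ord_sup h hn hd ⟨(x : PadicAlgCl q), hx⟩
  exact this

/-- `ord_M` restricted to `K` is `e · ord_K`. -/
theorem ord_sup_base (h : K ≤ L) (hn : 0 < n) (hd : resDeg h ∣ n) (x : K) :
    ord (L ⊔ unr q K n) (IntermediateField.inclusion (h.trans le_sup_left) x) =
      ramIdx h * ord K x := by
  rw [ord_inclusion, ramIdx_trans h le_sup_left, ramIdx_sup_left h hn hd, mul_one]

/-- **(M4')** `[L · K_n : L] = e` as a `finrank` for the relative algebra of `LocField17`
(`n = e f`). -/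
theorem finrank_rel_sup (h : K ≤ L) (hn : n = ramIdx h * resDeg h) :
    letI := relAlgebra (le_sup_left : L ≤ L ⊔ unr q K n)
    finrank L ↥(L ⊔ unr q K n) = ramIdx h := by
  have hn0 : 0 < n := by rw [hn]; exact Nat.mul_pos (ramIdx_pos h) (resDeg_pos h)
  have hd : resDeg h ∣ n := ⟨ramIdx h, by rw [hn, mul_comm]⟩
  have h1 := finrank_rel_eq (le_sup_left : L ≤ L ⊔ unr q K n)
  rw [ramIdx_sup_left h hn0 hd, one_mul] at h1
  have h2 := resDeg_sup_left h hn0 hd
  have h3 : resDeg h * resDeg (le_sup_left : L ≤ L ⊔ unr q K n) = resDeg h * ramIdx h :=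
    (h2.trans hn).trans (mul_comm _ _)
  rw [h1]
  exact Nat.eq_of_mul_eq_mul_left (resDeg_pos h) h3

end Sup

end Fermat.Agent.S55.UnrMax66
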